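import Mathlib

/-!
# S17 / F : `m`-th roots of holomorphic functions on discs (Mathlib only) -- RB3, RB4
-/

set_option autoImplicit false

open Metric Set Filter Topology

namespace Fermat.Agent.S17.F

/-- RB3. Uniqueness of roots on a disc.
PROOF. `(u₁ - u₂) * ∑ i < m, u₁ ^ i * u₂ ^ (m - 1 - i) = u₁^m - u₂^m = 0` on the ball; analytic functions on a preconnected open set
form a domain (`AnalyticOnNhd.eq_zero_or_eq_zero_of_mul_eq_zero`), and the second factor is `m u₁(p)^(m-1) ≠ 0` at `p`. -/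
theorem root_unique {u₁ u₂ : ℂ → ℂ} {c : ℂ} {r : ℝ} {m : ℕ} (hm : 0 < m)
    (h₁ : DifferentiableOn ℂ u₁ (ball c r)) (h₂ : DifferentiableOn ℂ u₂ (ball c r))
    (h : ∀ z ∈ ball c r, u₁ z ^ m = u₂ z ^ m) {p : ℂ} (hp : p ∈ ball c r) (hp0 : u₁ p ≠ 0)
    (hpe : u₁ p = u₂ p) : EqOn u₁ u₂ (ball c r) := by
  have ha₁ : AnalyticOnNhd ℂ u₁ (ball c r) := h₁.analyticOnNhd isOpen_ball
  have ha₂ : AnalyticOnNhd ℂ u₂ (ball c r) := h₂.analyticOnNhd isOpen_ball
  have hf : AnalyticOnNhd ℂ (fun z => u₁ z - u₂ z) (ball c r) := ha₁.sub ha₂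
  have hg : AnalyticOnNhd ℂ (fun z => ∑ i ∈ Finset.range m, u₁ z ^ i * u₂ z ^ (m - 1 - i))
      (ball c r) := by
    intro z hz
    refine Finset.analyticAt_fun_sum _ fun i _ => ?_
    exact ((ha₁ z hz).pow i).mul ((ha₂ z hz).pow _)
  have hfg : ∀ z ∈ ball c r,
      (u₁ z - u₂ z) * ∑ i ∈ Finset.range m, u₁ z ^ i * u₂ z ^ (m - 1 - i) = 0 := by
    intro z hz
    rw [(Commute.all (u₁ z) (u₂ z)).mul_geom_sum₂, h z hz, sub_self]
  rcases hf.eq_zero_or_eq_zero_of_mul_eq_zero hg hfg (convex_ball c r).isPreconnected with h0 | h0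
  · intro z hz
    exact sub_eq_zero.1 (h0 z hz)
  · exfalso
    have h1 := h0 p hp
    rw [← hpe] at h1
    have h2 : ∑ i ∈ Finset.range m, u₁ p ^ i * u₁ p ^ (m - 1 - i) = m * u₁ p ^ (m - 1) := by
      rw [Finset.sum_congr rfl (g := fun _ => u₁ p ^ (m - 1))]
      · simp
      · intro i hi
        rw [← pow_add]
        congr 1
        have := Finset.mem_range.1 hi
        omega
    rw [h2] at h1
    exact mul_ne_zero (by exact_mod_cast hm.ne') (pow_ne_zero _ hp0) h1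

/-- RB4. Gluing along an increasing sequence of discs.
PROOF. Fix `w₀ = u₀ p`.  Normalise each `uₙ` by a root of unity so that `uₙ p = w₀` (`(w₀ / uₙ p)^m = 1`).  By `root_unique`, `uₙ = u_k` on the smaller ball.
Put `u z = u_{n(z)} z` with `n(z)` minimal (`Nat.find`) such that `z` lies in the `n`-th ball; `u = uₙ` on the `n`-th ball, which is open. -/
theorem exists_root_iUnion {A : ℂ → ℂ} {c : ℕ → ℂ} {r : ℕ → ℝ} {m : ℕ} (hm : 0 < m)
    (hmono : Monotone fun n => ball (c n) (r n)) {p : ℂ} (hp : p ∈ ball (c 0) (r 0)) (hAp : A p ≠ 0)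
    (h : ∀ n, ∃ u : ℂ → ℂ, DifferentiableOn ℂ u (ball (c n) (r n)) ∧
      ∀ z ∈ ball (c n) (r n), u z ^ m = A z) :
    ∃ u : ℂ → ℂ, DifferentiableOn ℂ u (⋃ n, ball (c n) (r n)) ∧
      ∀ z ∈ ⋃ n, ball (c n) (r n), u z ^ m = A z := by
  classical
  choose u hu hum using h
  have hpn : ∀ n, p ∈ ball (c n) (r n) := fun n => hmono (Nat.zero_le n) hp
  have hup : ∀ n, u n p ≠ 0 := fun n h0 =>
    hAp (by rw [← hum n p (hpn n), h0, zero_pow hm.ne'])
  let v : ℕ → ℂ → ℂ := fun n z => (u 0 p / u n p) * u n z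
  have hv : ∀ n, DifferentiableOn ℂ (v n) (ball (c n) (r n)) := fun n => (hu n).const_mul _
  have hvm : ∀ n, ∀ z ∈ ball (c n) (r n), v n z ^ m = A z := by
    intro n z hz
    simp only [v]
    rw [mul_pow, div_pow, hum 0 p hp, hum n p (hpn n), div_self hAp, one_mul, hum n z hz]
  have hvp : ∀ n, v n p = u 0 p := fun n => by
    simp only [v]
    exact div_mul_cancel₀ _ (hup n)
  have hvv : ∀ n k, n ≤ k → EqOn (v n) (v k) (ball (c n) (r n)) := by
    intro n k hnk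
    refine root_unique hm (hv n) ((hv k).mono (hmono hnk)) (fun z hz => ?_) (hpn n) ?_ ?_
    · rw [hvm n z hz, hvm k z (hmono hnk hz)]
    · rw [hvp]; exact hup 0
    · rw [hvp, hvp]
  let U : ℂ → ℂ := fun z => if h : ∃ n, z ∈ ball (c n) (r n) then v (Nat.find h) z else 0
  have hU : ∀ n, EqOn U (v n) (ball (c n) (r n)) := by
    intro n z hz
    have h : ∃ n, z ∈ ball (c n) (r n) := ⟨n, hz⟩
    simp only [U, dif_pos h]
    exact hvv _ _ (Nat.find_min' h hz) (Nat.find_spec h)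
  refine ⟨U, ?_, ?_⟩
  · intro z hz
    obtain ⟨n, hn⟩ := mem_iUnion.1 hz
    have h1 : DifferentiableAt ℂ (v n) z := (hv n).differentiableAt (isOpen_ball.mem_nhds hn)
    have h2 : U =ᶠ[𝓝 z] v n := Filter.eventuallyEq_of_mem (isOpen_ball.mem_nhds hn) (hU n)
    exact (h2.differentiableAt_iff.2 h1).differentiableWithinAt
  · intro z hz
    obtain ⟨n, hn⟩ := mem_iUnion.1 hz
    rw [hU n hn, hvm n z hn]

end Fermat.Agent.S17.F
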