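import Fermat.Agent.S17.F.RootClosedBall
import Fermat.Agent.S17.F.RootGlue

/-!
# S17 / F : `m`-th roots of holomorphic functions on discs (Mathlib only) -- RB5 and the root lemma on the half plane
-/

set_option autoImplicit false

open Metric Set Filter Topology

namespace Fermat.Agent.S17.F

/-- RB5. Exhaustion of the upper half plane by discs with compact closure:
`c n = (n+1) i`, `r n = (n+1) - 1/(n+1)`. -/
theorem exists_exhaustion : ∃ (c : ℕ → ℂ) (r : ℕ → ℝ), (Monotone fun n => ball (c n) (r n)) ∧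
    (∀ n, closedBall (c n) (r n) ⊆ {z : ℂ | 0 < z.im}) ∧
    (⋃ n, ball (c n) (r n)) = {z : ℂ | 0 < z.im} := by
  have hsub : ∀ n : ℕ, closedBall (((n : ℝ) + 1 : ℝ) * Complex.I) (((n : ℝ) + 1) - 1 / ((n : ℝ) + 1))
      ⊆ {z : ℂ | 0 < z.im} := by
    intro n z hz
    rw [mem_closedBall, dist_eq_norm] at hz
    have h1 := (Complex.abs_im_le_norm (z - ((n : ℝ) + 1 : ℝ) * Complex.I)).trans hz
    have h2 : (z - ((n : ℝ) + 1 : ℝ) * Complex.I).im = z.im - ((n : ℝ) + 1) := by
      simp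
    rw [h2, abs_le] at h1
    have h3 : (0 : ℝ) < 1 / ((n : ℝ) + 1) := by positivity
    show 0 < z.im
    linarith [h1.1]
  refine ⟨fun n => ((n : ℝ) + 1 : ℝ) * Complex.I, fun n => ((n : ℝ) + 1) - 1 / ((n : ℝ) + 1),
    ?_, hsub, ?_⟩
  · intro n k hnk
    apply ball_subset_ball'
    have hnk' : (n : ℝ) ≤ k := by exact_mod_cast hnk
    have h1 : dist (((n : ℝ) + 1 : ℝ) * Complex.I) (((k : ℝ) + 1 : ℝ) * Complex.I) = (k : ℝ) - n := by
      rw [dist_eq_norm, ← sub_mul, norm_mul, Complex.norm_I, mul_one, ← Complex.ofReal_sub,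
        Complex.norm_real, Real.norm_eq_abs, abs_of_nonpos (by linarith)]
      ring
    rw [h1]
    have h2 : 1 / ((k : ℝ) + 1) ≤ 1 / ((n : ℝ) + 1) :=
      one_div_le_one_div_of_le (by positivity) (by linarith)
    linarith
  · apply Subset.antisymm
    · intro z hz
      obtain ⟨n, hn⟩ := mem_iUnion.1 hz
      exact hsub n (ball_subset_closedBall hn)
    · intro z hz
      have hy : 0 < z.im := hz
      obtain ⟨n, hn⟩ := exists_nat_gt ((z.re ^ 2 + z.im ^ 2 + 2) / (2 * z.im))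
      refine mem_iUnion.2 ⟨n, ?_⟩
      rw [mem_ball, dist_eq_norm]
      have hN : (1 : ℝ) ≤ (n : ℝ) + 1 := by
        have : (0 : ℝ) ≤ n := Nat.cast_nonneg n
        linarith
      have hr : 0 ≤ ((n : ℝ) + 1) - 1 / ((n : ℝ) + 1) := by
        have : 1 / ((n : ℝ) + 1) ≤ 1 := by
          rw [div_le_one (by linarith)]
          exact hN
        linarith
      apply lt_of_pow_lt_pow_left₀ 2 hr
      rw [Complex.sq_norm, Complex.normSq_apply]
      have h1 : (z - ((n : ℝ) + 1 : ℝ) * Complex.I).re = z.re := by simp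
      have h2 : (z - ((n : ℝ) + 1 : ℝ) * Complex.I).im = z.im - ((n : ℝ) + 1) := by simp
      rw [h1, h2]
      rw [div_lt_iff₀ (by positivity)] at hn
      have h3 : (((n : ℝ) + 1) - 1 / ((n : ℝ) + 1)) ^ 2
          = ((n : ℝ) + 1) ^ 2 - 2 + (1 / ((n : ℝ) + 1)) ^ 2 := by
        field_simp
        ring
      rw [h3]
      have h4 : 0 ≤ (1 / ((n : ℝ) + 1)) ^ 2 := by positivity
      nlinarith

/-- **Root lemma** on the upper half plane `{z | 0 < z.im}`. -/
theorem exists_root_halfPlane {A : ℂ → ℂ} {m : ℕ} (hm : 0 < m)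
    (hA : DifferentiableOn ℂ A {z : ℂ | 0 < z.im})
    (hord : ∀ z : ℂ, 0 < z.im → ∃ k : ℕ, analyticOrderAt A z = ((m * k : ℕ) : ℕ∞)) :
    ∃ u : ℂ → ℂ, DifferentiableOn ℂ u {z : ℂ | 0 < z.im} ∧ ∀ z : ℂ, 0 < z.im → u z ^ m = A z := by
  have hopen : IsOpen {z : ℂ | 0 < z.im} := isOpen_lt continuous_const Complex.continuous_im
  obtain ⟨c, r, hmono, hsub, hunion⟩ := exists_exhaustion
  -- a point where `A` does not vanish
  obtain ⟨p, hpA, hpH⟩ : ∃ p : ℂ, A p ≠ 0 ∧ p ∈ {z : ℂ | 0 < z.im} := by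
    have hI : Complex.I ∈ {z : ℂ | 0 < z.im} := by simp
    obtain ⟨k, hk⟩ := hord Complex.I hI
    have h1 : ¬ ∀ᶠ z in 𝓝 Complex.I, A z = 0 := by
      rw [← analyticOrderAt_eq_top, hk]
      exact ENat.natCast_ne_top _
    exact ((Filter.not_eventually.1 h1).and_eventually (hopen.mem_nhds hI)).exists
  rw [← hunion] at hpH
  obtain ⟨n₀, hn₀⟩ := mem_iUnion.1 hpH
  have hmono' : Monotone fun n => ball (c (n + n₀)) (r (n + n₀)) := fun a b hab =>
    hmono (Nat.add_le_add_right hab n₀)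
  have hunion' : (⋃ n, ball (c (n + n₀)) (r (n + n₀))) = {z : ℂ | 0 < z.im} := by
    rw [← hunion]
    apply Subset.antisymm
    · exact iUnion_subset fun n => subset_iUnion (fun n => ball (c n) (r n)) (n + n₀)
    · exact iUnion_subset fun n => (hmono (Nat.le_add_right n n₀)).trans
        (subset_iUnion (fun n => ball (c (n + n₀)) (r (n + n₀))) n)
  obtain ⟨u, hu, hum⟩ := exists_root_iUnion (A := A) (c := fun n => c (n + n₀))
    (r := fun n => r (n + n₀)) hm hmono' (p := p) (by simpa using hn₀) hpA (fun n =>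
      exists_root_closedBall hm ((hA.analyticOnNhd hopen).mono (hsub _))
        (fun z hz => hord z (hsub _ hz)))
  rw [hunion'] at hu hum
  exact ⟨u, hu, hum⟩

end Fermat.Agent.S17.F
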