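import Mathlib

/-!
# S17 / F : `Γ₀(N)` has finitely many characters of order dividing `m` (Mathlib only)
-/

set_option autoImplicit false

open scoped MatrixGroups

namespace Fermat.Agent.S17.F

/-- a finitely generated group has finitely many homomorphisms to a finite group. -/
theorem finite_monoidHom_of_fg (G H : Type*) [Group G] [Group H] [Group.FG G] [Finite H] :
    Finite (G →* H) := by
  obtain ⟨s, hs⟩ := Group.fg_def.1 (inferInstance : Group.FG G)
  refine Finite.of_injective (fun f : G →* H => fun x : s => f (x : G)) ?_
  intro f g hfg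
  refine MonoidHom.eq_of_eqOn_dense hs ?_
  intro x hx
  exact congrFun hfg ⟨x, hx⟩

theorem fg_SL2Z : Group.FG SL(2, ℤ) :=
  Group.fg_def.2 ⟨{ModularGroup.S, ModularGroup.T}, by
    simpa using SpecialLinearGroup.SL2Z_generators⟩

/-- `Γ₀(N)` is finitely generated (Schreier: `Subgroup.fg_of_index_ne_zero`, `SpecialLinearGroup.SL2Z_generators`,
`CongruenceSubgroup.instFiniteIndexGamma0`), so it has finitely many homomorphisms to a finite group
(a homomorphism is determined by its restriction to a finite generating set). -/
theorem finite_hom (N : ℕ) [NeZero N] (m : ℕ) [NeZero m] : Finite (CongruenceSubgroup.Gamma0 N →* rootsOfUnity m ℂ) := by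
  have := fg_SL2Z
  have : Group.FG (CongruenceSubgroup.Gamma0 N) := Subgroup.fg_of_index_ne_zero _
  exact finite_monoidHom_of_fg _ _

end Fermat.Agent.S17.F
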