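import Fermat.Agent.S17.F.Defs

/-!
# S17 / F : the order of vanishing at a point of `ℍ` is a multiple of the order at a place
-/

set_option autoImplicit false

open AlgebraicCurve ModularCurve UpperHalfPlane Filter Topology
open scoped MatrixGroups Manifold

namespace Fermat.Agent.S17.F

open Fermat.Agent.S24

noncomputable section

/-- identity theorem on `ℍ` (see the proof of `S24.taylorAt_injective`) -/
theorem analyticOrderAt_ne_top {A : ℍ → ℂ} (hA : MDiff A) (hA0 : A ≠ 0) (τ : ℍ) :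
    analyticOrderAt (A ∘ ofComplex) (τ : ℂ) ≠ ⊤ := by
  intro h2
  rw [analyticOrderAt_eq_top] at h2
  have hd : DifferentiableOn ℂ (A ∘ ofComplex) {z : ℂ | 0 < z.im} :=
    UpperHalfPlane.mdifferentiable_iff.mp hA
  have han : AnalyticOnNhd ℂ (A ∘ ofComplex) {z : ℂ | 0 < z.im} :=
    hd.analyticOnNhd isOpen_upperHalfPlaneSet
  have hconn : IsPreconnected {z : ℂ | 0 < z.im} := (convex_halfSpace_im_gt 0).isPreconnected
  have h3 := han.eqOn_zero_of_preconnected_of_eventuallyEq_zero hconn τ.im_pos h2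
  apply hA0
  ext σ
  have := h3 σ.im_pos
  simpa using this

variable (N : ℕ) [NeZero N]

/-- PROOF. `σ : FC N →ₐ[ℂ] ℂ((t))` with `σ (iotaR a) = taylorAt τ a` (`exists_lift_FC`, `taylorAt_injective`).
`w f := (σ f).order` satisfies the hypotheses `hmul`, `hadd`, `hK` of `S24.FF.exists_place_of_ordFun`.
If `w` is trivial then the order of `A` at `τ` is `0 = m * 0`.  Otherwise `w = c * v.ord`, hence
`w (iotaR A) = c * (v.ord f + m * v.ord (iotaR b))` is divisible by `m`; it equals the analytic order by `taylorAt_order`. -/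
theorem order_dvd (m : ℕ) {f : FC N} (hf : f ≠ 0)
    (hdiv : ∀ v : Place ℂ (FC N), (m : ℤ) ∣ v.ord f) {A b : Ran N} (hb : b ≠ 0)
    (hA : iotaR N A = f * iotaR N b ^ m) (τ : ℍ) :
    ∃ k : ℕ, analyticOrderAt ((A : ℍ → ℂ) ∘ ofComplex) (τ : ℂ) = ((m * k : ℕ) : ℕ∞) := by
  have hbb := iotaR_ne_zero N hb
  have hA0 : A ≠ 0 := by
    intro h
    rw [h, map_zero] at hA
    exact mul_ne_zero hf (pow_ne_zero _ hbb) hA.symm
  have hA0' : (A : ℍ → ℂ) ≠ 0 := fun h => hA0 (Subtype.ext h)
  -- the analytic order is a natural number `n`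
  obtain ⟨n, hn⟩ := ENat.ne_top_iff_exists.mp (analyticOrderAt_ne_top (Ran_le_Hol N A.2) hA0' τ)
  -- the embedding
  let ψ : Ran N →ₐ[ℂ] LaurentSeries ℂ := (taylorAt τ).comp (Subalgebra.inclusion (Ran_le_Hol N))
  have hψ : Function.Injective ψ :=
    (taylorAt_injective τ).comp (Subalgebra.inclusion_injective (Ran_le_Hol N))
  obtain ⟨σ, hσ⟩ := exists_lift_FC N ψ hψ
  have hσ0 : ∀ g : FC N, g ≠ 0 → σ g ≠ 0 := fun g hg => (map_ne_zero σ.toRingHom).mpr hg
  have hord : (σ (iotaR N A)).order = n := by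
    rw [hσ]
    exact taylorAt_order τ ⟨A.1, Ran_le_Hol N A.2⟩ n hn.symm
  let w : FC N → ℤ := fun g => (σ g).order
  have hmul : ∀ f g, f ≠ 0 → g ≠ 0 → w (f * g) = w f + w g := by
    intro f g hf hg
    simp only [w, map_mul]
    exact HahnSeries.order_mul (hσ0 f hf) (hσ0 g hg)
  have hadd : ∀ f g, f ≠ 0 → g ≠ 0 → f + g ≠ 0 → min (w f) (w g) ≤ w (f + g) := by
    intro f g _ _ hfg
    simp only [w, map_add]
    exact HahnSeries.min_order_le_order_add (by rw [← map_add]; exact hσ0 _ hfg)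
  have hK : ∀ c : ℂ, c ≠ 0 → w (algebraMap ℂ (FC N) c) = 0 := by
    intro c hc
    simp only [w, AlgHom.commutes]
    rw [algebraMap_laurentSeries_eq_single]
    exact HahnSeries.order_single hc
  by_cases hnt : ∃ f, f ≠ 0 ∧ w f ≠ 0
  · obtain ⟨v, c, -, hv⟩ := Fermat.Agent.S24.FF.exists_place_of_ordFun w hmul hadd hK hnt
    have h1 : w (iotaR N A) = c * v.ord (iotaR N A) := hv _ (iotaR_ne_zero N hA0)
    rw [hA, v.ord_mul hf (pow_ne_zero _ hbb), Fermat.Agent.S24.FF.ord_pow, ← hA] at h1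
    obtain ⟨e, he⟩ := hdiv v
    have h2 : (n : ℤ) = m * (c * (e + v.ord (iotaR N b))) := by
      rw [← hord]
      show w (iotaR N A) = _
      rw [h1, he]
      ring
    rcases Nat.eq_zero_or_pos m with rfl | hm
    · refine ⟨0, ?_⟩
      rw [← hn]
      simp only [Nat.cast_zero, zero_mul] at h2
      have : n = 0 := by exact_mod_cast h2
      simp [this]
    · have h3 : 0 ≤ c * (e + v.ord (iotaR N b)) := by
        by_contra hneg
        push Not at hneg
        have : (m : ℤ) * (c * (e + v.ord (iotaR N b))) < 0 :=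
          mul_neg_of_pos_of_neg (by exact_mod_cast hm) hneg
        omega
      obtain ⟨k, hk⟩ := Int.eq_ofNat_of_zero_le h3
      refine ⟨k, ?_⟩
      rw [← hn]
      rw [hk] at h2
      have : n = m * k := by exact_mod_cast h2
      rw [this]
  · push Not at hnt
    have h1 : w (iotaR N A) = 0 := hnt _ (iotaR_ne_zero N hA0)
    have h2 : (n : ℤ) = 0 := by rw [← hord]; exact h1
    refine ⟨0, ?_⟩
    rw [← hn]
    have : n = 0 := by exact_mod_cast h2
    simp [this]

end

end Fermat.Agent.S17.F
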