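import Fermat.Agent.S24.Cusp
import Fermat.Agent.S24.QDict
import Fermat.Agent.S24.Taylor
import Fermat.Agent.S24.Gen
import Fermat.Agent.S24.Embeddings
import Fermat.Agent.S24.FF.PlaceBasic

/-!
# S17 / Part F : finiteness of the `m`-torsion of `Pic⁰` of the function field of `X₀(N)` over `ℂ`

`Defs.lean`: the ring `Ran N = ℂ[j(dτ) : d ∣ N]` of functions on `ℍ`, its embedding `iotaR` in the function field
`FC N = ℂ(j(q^d) : d ∣ N) ⊆ ℂ((q))`  (`FC N` is *reducibly* equal to `Fermat.Agent.S17.FL ℂ N`).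
-/

set_option autoImplicit false

open AlgebraicCurve ModularCurve UpperHalfPlane Filter Topology
open scoped MatrixGroups Manifold

namespace Fermat.Agent.S17.F

open Fermat.Agent.S24

noncomputable section

/-- the function field of `X₀(N)` over `ℂ` (`= FL ℂ N` of `Curve/Base.lean`) -/
abbrev FC (N : ℕ) : IntermediateField ℂ (LaurentSeries ℂ) :=
  laurentBaseChange ℂ (modularFunctionFieldFull N)

/-- `Γ₀(N)` -/
abbrev G0 (N : ℕ) : Subgroup SL(2, ℤ) := CongruenceSubgroup.Gamma0 N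

variable (N : ℕ) [NeZero N]

/-- `ℂ[j(dτ) : d ∣ N]`, a ring of holomorphic functions on `ℍ` -/
def Ran : Subalgebra ℂ (ℍ → ℂ) := Algebra.adjoin ℂ (Set.range fun d : Dv N => jd d.1)

theorem jd_mem_Ran (d : Dv N) : jd d.1 ∈ Ran N := Algebra.subset_adjoin ⟨d, rfl⟩

theorem jfun_mem_Ran : jfun ∈ Ran N := by
  have h := jd_mem_Ran N ⟨1, one_dvd N⟩
  have h1 : jd 1 = jfun := by
    funext τ
    unfold jd
    congr 1
    ext
    simp [mulH]
  rwa [h1] at h

theorem adjoin_jfun_le_Ran : Algebra.adjoin ℂ {jfun} ≤ Ran N :=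
  Algebra.adjoin_le (by rintro _ rfl; exact jfun_mem_Ran N)

theorem Ran_le_HolCusp : Ran N ≤ HolCusp 1 :=
  Algebra.adjoin_le (by rintro _ ⟨d, rfl⟩; exact jd_mem_HolCusp_one d.1)

theorem HolCusp_le_Hol (h : ℕ) [NeZero h] : HolCusp h ≤ Hol := fun _ hf => hf.1

theorem Ran_le_Hol : Ran N ≤ Hol := (Ran_le_HolCusp N).trans (HolCusp_le_Hol 1)

variable {N}

/-- elements of `Ran N` are `Γ₀(N)`-invariant -/
theorem Ran_smul {a : ℍ → ℂ} (ha : a ∈ Ran N) {g : SL(2, ℤ)} (hg : g ∈ G0 N) (τ : ℍ) :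
    a (g • τ) = a τ := by
  unfold Ran at ha
  induction ha using Algebra.adjoin_induction with
  | mem x hx =>
    obtain ⟨d, rfl⟩ := hx
    exact jd_smul_of_mem_Gamma0 N d.1 d.2 g hg τ
  | algebraMap c => rfl
  | add x y _ _ hx hy => simp only [Pi.add_apply, hx, hy]
  | mul x y _ _ hx hy => simp only [Pi.mul_apply, hx, hy]

/-- all `SL₂(ℤ)`-translates of elements of `Ran N` are meromorphic at `i∞` -/
theorem compInv_mem_HolCusp {a : ℍ → ℂ} (ha : a ∈ Ran N) (g : SL(2, ℤ)) :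
    compInv g a ∈ HolCusp N := by
  unfold Ran at ha
  induction ha using Algebra.adjoin_induction with
  | mem x hx =>
    obtain ⟨d, rfl⟩ := hx
    exact compInv_jd_mem_HolCusp N g d
  | algebraMap c => exact (HolCusp N).algebraMap_mem c
  | add x y _ _ hx hy => exact (HolCusp N).add_mem hx hy
  | mul x y _ _ hx hy => exact (HolCusp N).mul_mem hx hy

variable (N)

/-- `laurent 1 (j(dτ)) = j(q^d)` with complex coefficients -/
theorem laurent_jd_eq (d : ℕ) [NeZero d] :
    laurent 1 ⟨jd d, jd_mem_HolCusp_one d⟩ = coeffEmb ℂ (qExpand ℚ d jq) := by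
  rw [laurent_jd, jSer, coeffEmb, coeffEmb, coeffMap_coeffMap]
  exact coeffMap_congr (Subsingleton.elim _ _) _

theorem coeffEmb_algebraMap' (r : ℚ) :
    coeffEmb ℂ (algebraMap ℚ (LaurentSeries ℚ) r)
      = algebraMap ℂ (LaurentSeries ℂ) (algebraMap ℚ ℂ r) := by
  rw [algebraMap_laurentSeries_eq_single, algebraMap_laurentSeries_eq_single, coeffEmb,
    coeffMap_single]

theorem coeffEmb_mem_adjoin' {x : LaurentSeries ℚ}
    (hx : x ∈ IntermediateField.adjoin ℚ (divisorExpansions N)) :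
    coeffEmb ℂ x ∈ IntermediateField.adjoin ℂ
      (Set.range fun d : Dv N => coeffEmb ℂ (qExpand ℚ d.1 jq)) := by
  induction hx using IntermediateField.adjoin_induction with
  | mem x hx =>
    obtain ⟨d, hd0, hd, rfl⟩ := hx
    exact IntermediateField.subset_adjoin _ _ ⟨⟨d, hd⟩, rfl⟩
  | algebraMap r =>
    rw [coeffEmb_algebraMap']
    exact IntermediateField.algebraMap_mem _ _
  | add x y hx hy ihx ihy =>
    rw [map_add]
    exact add_mem ihx ihy
  | inv x hx ih =>
    rw [map_inv₀]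
    exact inv_mem ih
  | mul x y hx hy ihx ihy =>
    rw [map_mul]
    exact mul_mem ihx ihy

theorem FC_eq_adjoin :
    FC N = IntermediateField.adjoin ℂ (Set.range fun d : Dv N => coeffEmb ℂ (qExpand ℚ d.1 jq)) := by
  apply le_antisymm
  · unfold FC laurentBaseChange
    rw [IntermediateField.adjoin_le_iff]
    rintro _ ⟨x, hx, rfl⟩
    exact coeffEmb_mem_adjoin' N hx
  · rw [IntermediateField.adjoin_le_iff]
    rintro _ ⟨d, rfl⟩
    exact coeffEmb_mem_laurentBaseChange ℂ (jqd_mem_full N d.2)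

theorem laurent_mem_FC (a : Ran N) : laurent 1 ⟨a.1, Ran_le_HolCusp N a.2⟩ ∈ FC N := by
  have key : ∀ (x : ℍ → ℂ) (hx : x ∈ Ran N), laurent 1 ⟨x, Ran_le_HolCusp N hx⟩ ∈ FC N := by
    intro x hx
    have hx' := hx
    unfold Ran at hx'
    induction hx' using Algebra.adjoin_induction with
    | mem x hx1 =>
      obtain ⟨d, rfl⟩ := hx1
      have := laurent_jd_eq d.1
      rw [this]
      exact coeffEmb_mem_laurentBaseChange ℂ (jqd_mem_full N d.2)
    | algebraMap c =>
      have : (⟨algebraMap ℂ (ℍ → ℂ) c, Ran_le_HolCusp N hx⟩ : HolCusp 1)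
          = algebraMap ℂ (HolCusp 1) c := rfl
      rw [this, AlgHom.commutes]
      exact (FC N).algebraMap_mem c
    | add x y hx1 hy1 ihx ihy =>
      have : (⟨x + y, Ran_le_HolCusp N hx⟩ : HolCusp 1)
          = ⟨x, Ran_le_HolCusp N hx1⟩ + ⟨y, Ran_le_HolCusp N hy1⟩ := rfl
      rw [this, map_add]
      exact add_mem (ihx hx1) (ihy hy1)
    | mul x y hx1 hy1 ihx ihy =>
      have : (⟨x * y, Ran_le_HolCusp N hx⟩ : HolCusp 1)
          = ⟨x, Ran_le_HolCusp N hx1⟩ * ⟨y, Ran_le_HolCusp N hy1⟩ := rfl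
      rw [this, map_mul]
      exact mul_mem (ihx hx1) (ihy hy1)
  exact key a.1 a.2

/-- the `q`-expansion embedding `Ran N → FC N` -/
def iotaR : Ran N →ₐ[ℂ] FC N :=
  ((laurent 1).comp (Subalgebra.inclusion (Ran_le_HolCusp N))).codRestrict (FC N).toSubalgebra
    (fun a => laurent_mem_FC N a)

theorem coe_iotaR (a : Ran N) :
    (iotaR N a : LaurentSeries ℂ) = laurent 1 ⟨a.1, Ran_le_HolCusp N a.2⟩ := rfl

theorem iotaR_injective : Function.Injective (iotaR N) := by
  intro a b h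
  have h1 := congrArg (Subtype.val) h
  rw [coe_iotaR, coe_iotaR] at h1
  have h2 := laurent_injective 1 h1
  exact Subtype.ext (Subtype.mk.inj h2)

theorem iotaR_ne_zero {b : Ran N} (hb : b ≠ 0) : iotaR N b ≠ 0 := fun h =>
  hb (iotaR_injective N (by rw [h, map_zero]))

/-- `FC N` is the field of fractions of `Ran N` -/
theorem exists_frac (f : FC N) : ∃ a b : Ran N, iotaR N b ≠ 0 ∧ f = iotaR N a / iotaR N b := by
  have hf : (f : LaurentSeries ℂ) ∈ IntermediateField.adjoin ℂ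
      (Set.range fun d : Dv N => coeffEmb ℂ (qExpand ℚ d.1 jq)) := by
    rw [← FC_eq_adjoin]
    exact f.2
  rw [IntermediateField.mem_adjoin_range_iff] at hf
  obtain ⟨r, s, hrs⟩ := hf
  let φ : MvPolynomial (Dv N) ℂ →ₐ[ℂ] Ran N :=
    MvPolynomial.aeval fun d => ⟨jd d.1, jd_mem_Ran N d⟩
  have hφ : ∀ p, ((iotaR N (φ p) : FC N) : LaurentSeries ℂ)
      = MvPolynomial.aeval (fun d : Dv N => coeffEmb ℂ (qExpand ℚ d.1 jq)) p := by
    intro p
    have h : ((FC N).val.comp ((iotaR N).comp φ))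
        = MvPolynomial.aeval (fun d : Dv N => coeffEmb ℂ (qExpand ℚ d.1 jq)) := by
      apply MvPolynomial.algHom_ext
      intro d
      simp only [φ, AlgHom.comp_apply, MvPolynomial.aeval_X]
      exact laurent_jd_eq d.1
    exact DFunLike.congr_fun h p
  by_cases hs : iotaR N (φ s) = 0
  · refine ⟨0, 1, by simp, ?_⟩
    have hs' : MvPolynomial.aeval (fun d : Dv N => coeffEmb ℂ (qExpand ℚ d.1 jq)) s = 0 := by
      rw [← hφ, hs]; rfl
    rw [hs', div_zero] at hrs
    have : f = 0 := Subtype.ext hrs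
    simp [this]
  · refine ⟨φ r, φ s, hs, Subtype.ext ?_⟩
    rw [hrs, ← hφ, ← hφ]
    rfl

/-- extension to `FC N` of an injective homomorphism from `Ran N` to a field -/
theorem exists_lift_FC {M : Type*} [Field M] [Algebra ℂ M] (ψ : Ran N →ₐ[ℂ] M)
    (hψ : Function.Injective ψ) : ∃ σ : FC N →ₐ[ℂ] M, ∀ a, σ (iotaR N a) = ψ a := by
  refine Gen.exists_lift (iotaR N) (exists_frac N) ψ fun p => ?_
  rw [map_eq_zero_iff _ hψ, map_eq_zero_iff _ (iotaR_injective N)]

end

end Fermat.Agent.S17.F
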