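import Fermat.Agent.S17.F.RootBall
import Fermat.Agent.S17.F.Defs

/-!
# S17 / F : the root lemma for functions `ℍ → ℂ`
-/

set_option autoImplicit false

open UpperHalfPlane Filter Topology
open scoped MatrixGroups Manifold

namespace Fermat.Agent.S17.F

open Fermat.Agent.S24

/-- **Root lemma.** -/
theorem exists_root {A : ℍ → ℂ} (hA : MDiff A) {m : ℕ} (hm : 0 < m)
    (hord : ∀ τ : ℍ, ∃ k : ℕ, analyticOrderAt (A ∘ ofComplex) (τ : ℂ) = ((m * k : ℕ) : ℕ∞)) :
    ∃ u : ℍ → ℂ, MDiff u ∧ u ^ m = A := by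
  obtain ⟨u, hu, hum⟩ := exists_root_halfPlane hm (UpperHalfPlane.mdifferentiable_iff.mp hA)
    (fun z hz => hord ⟨z, hz⟩)
  refine ⟨fun τ => u τ, ?_, ?_⟩
  · rw [UpperHalfPlane.mdifferentiable_iff]
    refine hu.congr fun z hz => ?_
    simp only [Function.comp_apply, ofComplex_apply_of_im_pos hz, coe_mk]
  · funext τ
    have := hum τ τ.im_pos
    simpa using this

end Fermat.Agent.S17.F
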