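import Fermat.Agent.S17.F.Descent
import Fermat.Agent.S17.F.Order
import Fermat.Agent.S17.F.Root
import Fermat.Agent.S17.F.FinHom

/-!
# S17 / F : `Pic⁰(ℂ(X₀(N)))[m]` is finite
-/

set_option autoImplicit false

open AlgebraicCurve ModularCurve UpperHalfPlane Filter Topology
open scoped MatrixGroups Manifold

namespace Fermat.Agent.S17.F

open Fermat.Agent.S24

noncomputable section

variable (N : ℕ) [NeZero N]

/-- `χ` is the character of a holomorphic `m`-th root of `f * b^m`. -/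
def IsData (m : ℕ) (f : FC N) (χ : G0 N →* rootsOfUnity m ℂ) : Prop :=
  ∃ (A b : Ran N) (u : ℍ → ℂ), b ≠ 0 ∧ MDiff u ∧ u ^ m = A ∧ iotaR N A = f * iotaR N b ^ m ∧
    ∀ (γ : G0 N) (τ : ℍ), u ((γ : SL(2, ℤ)) • τ) = ((χ γ : ℂˣ) : ℂ) * u τ

theorem exists_data (m : ℕ) [NeZero m] {f : FC N} (hf : f ≠ 0)
    (hdiv : ∀ v : Place ℂ (FC N), (m : ℤ) ∣ v.ord f) : ∃ χ, IsData N m f χ := by
  have hm : 0 < m := Nat.pos_of_ne_zero (NeZero.ne m)
  obtain ⟨a, b, hb, hfab⟩ := exists_frac N f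
  have hb0 : b ≠ 0 := fun h => hb (by rw [h, map_zero])
  set A : Ran N := a * b ^ (m - 1) with hAdef
  have hA : iotaR N A = f * iotaR N b ^ m := by
    obtain ⟨k, rfl⟩ : ∃ k, m = k + 1 := ⟨m - 1, by omega⟩
    rw [hAdef, map_mul, map_pow, hfab, Nat.add_sub_cancel, pow_succ]
    field_simp
  have hA0 : A ≠ 0 := by
    intro h
    rw [h, map_zero] at hA
    exact mul_ne_zero hf (pow_ne_zero _ hb) hA.symm
  obtain ⟨u, hu, hum⟩ := exists_root (Ran_le_Hol N A.2) hm (order_dvd N m hf hdiv hb0 hA)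
  have hu0 : u ≠ 0 := by
    rintro rfl
    apply hA0
    apply Subtype.ext
    rw [← hum, zero_pow hm.ne']
    rfl
  obtain ⟨χ, hχ⟩ := exists_character N hu hu0 m (fun γ hγ τ => by
    have h1 := congrFun hum (γ • τ)
    have h2 := congrFun hum τ
    simp only [Pi.pow_apply] at h1 h2
    rw [h1, h2, Ran_smul A.2 hγ])
  exact ⟨χ, A, b, u, hb0, hu, hum, hA, hχ⟩

theorem eq_mul_pow_of_data {m : ℕ} (hm : 0 < m) {f f' : FC N} (hf : f ≠ 0) (hf' : f' ≠ 0)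
    {χ : G0 N →* rootsOfUnity m ℂ} (h : IsData N m f χ) (h' : IsData N m f' χ) :
    ∃ g : FC N, g ≠ 0 ∧ f = f' * g ^ m := by
  obtain ⟨A, b, u, hb, hu, hum, hA, hχ⟩ := h
  obtain ⟨A', b', u', hb', hu', hum', hA', hχ'⟩ := h'
  have hW : MDiff (u * u' ^ (m - 1)) := hu.mul (hu'.pow _)
  have hWinv : ∀ γ ∈ G0 N, ∀ τ : ℍ, (u * u' ^ (m - 1)) (γ • τ) = (u * u' ^ (m - 1)) τ := by
    intro γ hγ τ
    have h1 := hχ ⟨γ, hγ⟩ τ
    have h2 := hχ' ⟨γ, hγ⟩ τ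
    simp only at h1 h2
    simp only [Pi.mul_apply, Pi.pow_apply, h1, h2]
    have h3 : (((χ ⟨γ, hγ⟩ : rootsOfUnity m ℂ) : ℂˣ) : ℂ) ^ m = 1 := by
      have h4 := (mem_rootsOfUnity _ _).mp (χ ⟨γ, hγ⟩).2
      have h5 := congrArg Units.val h4
      simpa using h5
    obtain ⟨k, rfl⟩ : ∃ k, m = k + 1 := ⟨m - 1, by omega⟩
    simp only [Nat.add_sub_cancel] at *
    rw [mul_pow, mul_mul_mul_comm, ← pow_succ', h3, one_mul]
  have hWm : (u * u' ^ (m - 1)) ^ m = ((A * A' ^ (m - 1) : Ran N) : ℍ → ℂ) := by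
    rw [mul_pow, ← pow_mul, mul_comm (m - 1) m, pow_mul, hum, hum']
    rfl
  obtain ⟨p, q, hq, hpq⟩ := descent hW hWinv hm (by rw [hWm]; exact (A * A' ^ (m - 1) : Ran N).2)
  have key : q ^ m * (A * A' ^ (m - 1)) = p ^ m := by
    apply Subtype.ext
    show (q : ℍ → ℂ) ^ m * ((A * A' ^ (m - 1) : Ran N) : ℍ → ℂ) = (p : ℍ → ℂ) ^ m
    rw [← hWm, ← mul_pow, hpq]
  have key2 := congrArg (iotaR N) key
  simp only [map_mul, map_pow, hA, hA'] at key2
  have hq' := iotaR_ne_zero N hq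
  have hbb := iotaR_ne_zero N hb
  have hbb' := iotaR_ne_zero N hb'
  refine ⟨iotaR N p / (iotaR N q * iotaR N b * iotaR N b' ^ (m - 1) * f'), ?_, ?_⟩
  · intro h0
    rw [div_eq_zero_iff] at h0
    rcases h0 with h0 | h0
    · rw [h0, zero_pow hm.ne'] at key2
      exact (mul_ne_zero (pow_ne_zero _ hq') (mul_ne_zero (mul_ne_zero hf (pow_ne_zero _ hbb))
        (pow_ne_zero _ (mul_ne_zero hf' (pow_ne_zero _ hbb'))))) key2
    · exact (mul_ne_zero (mul_ne_zero (mul_ne_zero hq' hbb) (pow_ne_zero _ hbb')) hf') h0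
  · rw [div_pow, ← key2]
    obtain ⟨k, rfl⟩ : ∃ k, m = k + 1 := ⟨m - 1, by omega⟩
    simp only [Nat.add_sub_cancel]
    field_simp
    ring

omit [NeZero N] in
theorem exists_fun (m : ℕ) (y : Pic0 ℂ (FC N)) (hy : m • y = 0) :
    ∃ (D : Divisor.degZero (K := ℂ) (F := FC N)) (f : FC N), Pic0.mk D = y ∧ f ≠ 0 ∧
      ∀ v, (m : ℤ) * (D : Divisor ℂ (FC N)) v = v.ord f := by
  obtain ⟨D, rfl⟩ := Pic0.mk_surjective y
  have h1 : Pic0.mk (m • D) = 0 := by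
    rw [← hy]
    rfl
  have h2 : m • D ∈ (Divisor.principal (K := ℂ) (F := FC N)).addSubgroupOf
      (Divisor.degZero (K := ℂ) (F := FC N)) := (QuotientAddGroup.eq_zero_iff _).mp h1
  obtain ⟨f, hf, hD⟩ := (AddSubgroup.mem_addSubgroupOf.mp h2 : _)
  refine ⟨D, f, rfl, hf, fun v => ?_⟩
  rw [← hD v]
  simp

/-- **Part F.** -/
theorem torsion_finite (m : ℕ) (hm : 0 < m) : {y : Pic0 ℂ (FC N) | m • y = 0}.Finite := by
  have : NeZero m := ⟨hm.ne'⟩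
  have := finite_hom N m
  choose D f hD hf hDf using fun y : {y : Pic0 ℂ (FC N) | m • y = 0} => exists_fun N m y.1 y.2
  choose χ hχ using fun y => exists_data N m (hf y) (fun v => ⟨_, (hDf y v).symm⟩)
  refine Set.finite_coe_iff.mp (Finite.of_injective χ ?_)
  intro y y' hyy
  obtain ⟨g, hg, hfg⟩ := eq_mul_pow_of_data N hm (hf y) (hf y') (hχ y) (hyy ▸ hχ y')
  apply Subtype.ext
  rw [← hD y, ← hD y']
  refine (QuotientAddGroup.eq_iff_sub_mem).mpr ?_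
  refine AddSubgroup.mem_addSubgroupOf.mpr ⟨g, hg, fun v => ?_⟩
  have h1 := hDf y v
  have h2 := hDf y' v
  rw [hfg, v.ord_mul (hf y') (pow_ne_zero _ hg), Fermat.Agent.S24.FF.ord_pow, ← h2] at h1
  have h3 : (m : ℤ) * ((D y : Divisor ℂ (FC N)) v - (D y' : Divisor ℂ (FC N)) v - v.ord g) = 0 := by
    linear_combination h1
  have h4 : (m : ℤ) ≠ 0 := by exact_mod_cast hm.ne'
  have h5 := (mul_eq_zero.mp h3).resolve_left h4
  simp only [AddSubgroup.coe_sub, Finsupp.sub_apply]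
  linarith

end

end Fermat.Agent.S17.F
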