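import Fermat.Agent.S17.F.Defs

/-!
# S17 / F : functions of moderate growth at `i∞`
-/

set_option autoImplicit false

open UpperHalfPlane Filter Topology
open scoped MatrixGroups Manifold

namespace Fermat.Agent.S17.F

open Fermat.Agent.S24 Fermat.Agent.S24.Laurent

noncomputable section

/-- holomorphic functions on `ℍ` with `f q_h^k` bounded at `i∞` for some `k` (no periodicity required) -/
def ModG (h : ℕ) [NeZero h] : Subalgebra ℂ (ℍ → ℂ) where
  carrier := {f | MDiff f ∧ ∃ m : ℕ, IsBoundedAtImInfty (fun τ => f τ * qh h τ ^ m)}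
  mul_mem' := by
    rintro f g ⟨hf1, m, hm⟩ ⟨hg1, n, hn⟩
    refine ⟨hf1.mul hg1, m + n, ?_⟩
    have := hm.mul hn
    have he : (fun τ => (f * g) τ * qh h τ ^ (m + n))
        = (fun τ => f τ * qh h τ ^ m) * fun τ => g τ * qh h τ ^ n := by
      funext τ
      simp only [Pi.mul_apply, pow_add]
      ring
    rw [he]
    exact this
  add_mem' := by
    rintro f g ⟨hf1, m, hm⟩ ⟨hg1, n, hn⟩
    refine ⟨hf1.add hg1, m + n, ?_⟩
    have := (hm.mul (bdd_qh_pow h n)).add (hn.mul (bdd_qh_pow h m))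
    have he : (fun τ => (f + g) τ * qh h τ ^ (m + n))
        = ((fun τ => f τ * qh h τ ^ m) * fun τ => qh h τ ^ n)
          + (fun τ => g τ * qh h τ ^ n) * fun τ => qh h τ ^ m := by
      funext τ
      simp only [Pi.mul_apply, Pi.add_apply, pow_add]
      ring
    rw [he]
    exact this
  algebraMap_mem' := fun c =>
    ⟨mdifferentiable_const, 0, by
      have he : (fun τ : ℍ => (algebraMap ℂ (ℍ → ℂ) c) τ * qh h τ ^ 0) = fun _ => c := by
        funext τ
        simp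
      rw [he]
      exact Filter.const_boundedAtFilter atImInfty c⟩

variable {h : ℕ} [NeZero h]

theorem HolCusp_le_ModG : HolCusp h ≤ ModG h := fun _ hf => ⟨hf.1, hf.2.2⟩

/-- PROOF. `‖f q^k‖^m = ‖f^m q^k‖ ‖q‖^(k (m-1)) ≤ C` (`‖q‖ ≤ 1`: `Cusp.norm_qh`), so `‖f q^k‖ ≤ max C 1`.
(`IsBoundedAtImInfty` unfolds by `UpperHalfPlane.isBoundedAtImInfty_iff`.) -/
theorem mem_ModG_of_pow {f : ℍ → ℂ} (hf : MDiff f) {m : ℕ} (hm : 0 < m) (hfm : f ^ m ∈ ModG h) :
    f ∈ ModG h := by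
  obtain ⟨-, k, hk⟩ := hfm
  refine ⟨hf, k, ?_⟩
  rw [UpperHalfPlane.isBoundedAtImInfty_iff] at hk ⊢
  obtain ⟨M, A, hMA⟩ := hk
  refine ⟨max M 1, A, fun τ hτ => ?_⟩
  have h1 := hMA τ hτ
  have hq1 : ‖qh h τ‖ ≤ 1 := by
    rw [Cusp.norm_qh, Real.exp_le_one_iff]
    have h2 : (0 : ℝ) < h := hpos h
    have h3 := τ.im_pos
    have h4 := Real.pi_pos
    apply div_nonpos_of_nonpos_of_nonneg _ h2.le
    nlinarith [mul_pos h4 h3]
  set x := ‖f τ * qh h τ ^ k‖ with hx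
  have hx0 : 0 ≤ x := norm_nonneg _
  have h5 : x ^ m ≤ M := by
    have h6 : x ^ m = ‖(f ^ m) τ * qh h τ ^ k‖ * ‖qh h τ‖ ^ (k * (m - 1)) := by
      rw [hx, ← norm_pow, ← norm_pow, ← norm_mul]
      congr 1
      obtain ⟨n, rfl⟩ : ∃ n, m = n + 1 := ⟨m - 1, by omega⟩
      simp only [Pi.pow_apply, Nat.add_sub_cancel]
      ring
    rw [h6]
    calc _ ≤ ‖(f ^ m) τ * qh h τ ^ k‖ * 1 :=
          mul_le_mul_of_nonneg_left (pow_le_one₀ (norm_nonneg _) hq1) (norm_nonneg _)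
      _ ≤ M := by rw [mul_one]; exact h1
  by_cases hx1 : x ≤ 1
  · exact hx1.trans (le_max_right _ _)
  · push Not at hx1
    exact ((le_self_pow₀ hx1.le hm.ne').trans h5).trans (le_max_left _ _)

/-- PROOF. periodicity from invariance under `T` (`Laurent.periodic_of_vadd`, `UpperHalfPlane.modular_T_smul`), growth from `Cusp.qh_pow : qh N τ ^ N = qh 1 τ`. -/
theorem mem_HolCusp_one_of_invariant {f : ℍ → ℂ} (hf : f ∈ ModG h)
    (hinv : ∀ (g : SL(2, ℤ)) (τ : ℍ), f (g • τ) = f τ) : f ∈ HolCusp 1 := by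
  obtain ⟨hf1, m, hm⟩ := hf
  refine ⟨hf1, ?_, m, ?_⟩
  · apply periodic_of_vadd
    intro τ
    rw [← hinv ModularGroup.T τ, UpperHalfPlane.modular_T_smul]
    simp
  · have h1 := hm.mul (bdd_qh_pow h (m * (h - 1)))
    have he : (fun τ => f τ * qh 1 τ ^ m)
        = (fun τ => f τ * qh h τ ^ m) * fun τ => qh h τ ^ (m * (h - 1)) := by
      funext τ
      obtain ⟨n, hn⟩ : ∃ n, h = n + 1 := ⟨h - 1, by have := NeZero.pos h; omega⟩
      simp only [Pi.mul_apply]
      rw [← Cusp.qh_pow h τ, mul_assoc, ← pow_add, ← pow_mul]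
      congr 2
      subst hn
      simp only [Nat.add_sub_cancel]
      ring
    rw [he]
    exact h1

end

end Fermat.Agent.S17.F
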