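import Fermat.Agent.S17.F.PolyJStep

/-!
# S17 / F : an `SL₂(ℤ)`-invariant holomorphic function on `ℍ`, meromorphic at `i∞`, is a polynomial in `j`
-/

set_option autoImplicit false

open UpperHalfPlane Filter Topology
open scoped MatrixGroups Manifold ModularForm

namespace Fermat.Agent.S17.F

open Fermat.Agent.S24

/-- `k = 0`: a bounded invariant function is a modular form of weight `0` and level one, hence constant
(`ModularFormClass.levelOne_weight_zero_const`; see the proof of `S24.jfun_surjective` for the construction of such a form). -/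
theorem const_of_bounded {c : ℍ → ℂ} (hc : MDiff c) (hinv : ∀ (g : SL(2, ℤ)) (τ : ℍ), c (g • τ) = c τ)
    (hb : IsBoundedAtImInfty c) : ∃ a : ℂ, c = fun _ => a := by
  have hslash : ∀ γ : SL(2, ℤ), (c ∣[(0 : ℤ)] γ) = c := by
    intro γ
    ext τ
    rw [ModularForm.SL_slash_apply, hinv]
    simp
  let G : ModularForm 𝒮ℒ 0 :=
    { toFun := c
      slash_action_eq' := by
        rintro _ ⟨γ, rfl⟩
        ext τ
        exact congr_fun (hslash γ) τ
      holo' := hc
      bdd_at_cusps' := by
        intro c' hc'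
        rw [Subgroup.IsArithmetic.isCusp_iff_isCusp_SL2Z] at hc'
        rw [OnePoint.isBoundedAt_iff_forall_SL2Z hc']
        intro γ _
        rw [hslash γ]
        exact hb }
  obtain ⟨c', hc'⟩ := ModularFormClass.levelOne_weight_zero_const G
  exact ⟨c', hc'⟩

/-- **Lemma J.** Induction on the pole order. -/
theorem mem_adjoin_jfun {c : ℍ → ℂ} (hc : c ∈ HolCusp 1)
    (hinv : ∀ (g : SL(2, ℤ)) (τ : ℍ), c (g • τ) = c τ) : c ∈ Algebra.adjoin ℂ {jfun} := by
  obtain ⟨k, hk⟩ := hc.2.2
  induction k generalizing c with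
  | zero =>
    obtain ⟨a, rfl⟩ := const_of_bounded hc.1 hinv (by simpa using hk)
    exact (Algebra.adjoin ℂ {jfun}).algebraMap_mem a
  | succ k ih =>
    obtain ⟨a, ha⟩ := exists_sub_bounded hc k hk
    have hj : jfun ∈ Algebra.adjoin ℂ {jfun} := Algebra.subset_adjoin rfl
    have hc' : (c - a • jfun ^ (k + 1)) ∈ HolCusp 1 :=
      (HolCusp 1).sub_mem hc ((HolCusp 1).smul_mem ((HolCusp 1).pow_mem (jfun_mem_HolCusp 1) _) a)
    have h1 := ih hc' (fun g τ => by
      simp only [Pi.sub_apply, Pi.smul_apply, Pi.pow_apply, hinv, jfun_smul]) ha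
    have h2 : c = (c - a • jfun ^ (k + 1)) + a • jfun ^ (k + 1) := by ring
    rw [h2]
    exact (Algebra.adjoin ℂ {jfun}).add_mem h1
      ((Algebra.adjoin ℂ {jfun}).smul_mem ((Algebra.adjoin ℂ {jfun}).pow_mem hj _) a)

end Fermat.Agent.S17.F
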