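import Mathlib

/-!
# S17 / F : the interpolation lemma (pure algebra, Mathlib only)
-/

set_option autoImplicit false

namespace Fermat.Agent.S17.F

/-- the `Fin n` version of `exists_mul_eq_sum`. -/
theorem exists_mul_eq_sum_fin {R : Type*} [CommRing R] [IsDomain R] (S : Subring R) {n : ℕ}
    (v w : Fin n → R) (hv : Function.Injective v) (h1 : ∀ k : ℕ, ∑ i, v i ^ k ∈ S)
    (h2 : ∀ k : ℕ, ∑ i, v i ^ k * w i ∈ S) :
    ∃ q ∈ S, q ≠ 0 ∧ ∃ c : Fin n → R, (∀ k, c k ∈ S) ∧
      ∀ i, q * w i = ∑ k : Fin n, c k * v i ^ (k : ℕ) := by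
  classical
  obtain ⟨V, hV⟩ : ∃ V : Matrix (Fin n) (Fin n) R, V = Matrix.vandermonde v := ⟨_, rfl⟩
  have hVdet : V.det ≠ 0 := by rw [hV]; exact Matrix.det_vandermonde_ne_zero_iff.2 hv
  obtain ⟨M₀, hM₀⟩ : ∃ M₀ : Matrix (Fin n) (Fin n) S,
      M₀ = fun k l => ⟨∑ i, v i ^ ((k : ℕ) + (l : ℕ)), h1 _⟩ := ⟨_, rfl⟩
  obtain ⟨s₀, hs₀⟩ : ∃ s₀ : Fin n → S, s₀ = fun k => ⟨∑ i, v i ^ (k : ℕ) * w i, h2 _⟩ := ⟨_, rfl⟩
  have hM : V.transpose * V = S.subtype.mapMatrix M₀ := by
    ext k l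
    rw [RingHom.mapMatrix_apply, Matrix.map_apply, hM₀, hV]
    simp only [Matrix.mul_apply, Matrix.transpose_apply, Matrix.vandermonde_apply,
      Subring.subtype_apply, pow_add]
  have hs : V.transpose.mulVec w = fun k => (s₀ k : R) := by
    funext k
    simp only [hV, hs₀, Matrix.mulVec, dotProduct, Matrix.transpose_apply, Matrix.vandermonde_apply]
  have hq : (V.transpose * V).det = ((M₀.det : S) : R) := by
    rw [hM, ← RingHom.map_det]; rfl
  have hc : (V.transpose * V).adjugate.mulVec (V.transpose.mulVec w) =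
      fun k => ((M₀.adjugate.mulVec s₀ k : S) : R) := by
    rw [hM, ← RingHom.map_adjugate, hs]
    funext k
    exact (RingHom.map_mulVec S.subtype M₀.adjugate s₀ k).symm
  refine ⟨(V.transpose * V).det, by rw [hq]; exact (M₀.det).2, ?_,
    (V.transpose * V).adjugate.mulVec (V.transpose.mulVec w), ?_, ?_⟩
  · rw [Matrix.det_mul, Matrix.det_transpose]
    exact mul_ne_zero hVdet hVdet
  · intro k
    rw [hc]
    exact (M₀.adjugate.mulVec s₀ k).2
  · have key : (V.transpose * V).det • w -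
        V.mulVec ((V.transpose * V).adjugate.mulVec (V.transpose.mulVec w)) = 0 := by
      refine Matrix.eq_zero_of_mulVec_eq_zero (M := V.transpose)
        (by rw [Matrix.det_transpose]; exact hVdet) ?_
      rw [Matrix.mulVec_sub, Matrix.mulVec_smul, Matrix.mulVec_mulVec, Matrix.mulVec_mulVec,
        Matrix.mul_adjugate, Matrix.smul_mulVec, Matrix.one_mulVec, sub_self]
    intro i
    have := congrFun (sub_eq_zero.1 key) i
    rw [Pi.smul_apply, smul_eq_mul] at this
    rw [this, Matrix.mulVec, dotProduct]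
    refine Finset.sum_congr rfl fun k _ => ?_
    rw [hV, Matrix.vandermonde_apply, mul_comm]

/-- Let `v i` be pairwise distinct elements of a domain `R`, `S ⊆ R` a subring containing all `∑ i, v i ^ k` and all `∑ i, v i ^ k * w i`.
Then there are `q ∈ S`, `q ≠ 0`, and `c k ∈ S` with `q * w i = ∑_{k < n} c k * v i ^ k` for all `i`.
PROOF. WLOG `ι = Fin n` (`Fintype.equivFin`).  `V = Matrix.vandermonde v` (`V i k = v i ^ k`), `det V ≠ 0` (`Matrix.det_vandermonde_ne_zero_iff`).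
`M = Vᵀ * V` has entries `∑ i, v i ^ (k + l) ∈ S`, `s = Vᵀ *ᵥ w` has entries in `S`.  `q = det M = (det V)^2 ≠ 0`, `c = adjugate M *ᵥ s`; both have entries in `S`
(write `M = M₀.map S.subtype`, use `RingHom.map_det`, `RingHom.map_adjugate`).  `Vᵀ *ᵥ (q • w - V *ᵥ c) = q • s - (M * adjugate M) *ᵥ s = 0` (`Matrix.mul_adjugate`)
and `Vᵀ` is injective (`Matrix.eq_zero_of_mulVec_eq_zero`). -/
theorem exists_mul_eq_sum {R : Type*} [CommRing R] [IsDomain R] (S : Subring R) {ι : Type*} [Fintype ι]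
    (v w : ι → R) (hv : Function.Injective v) (h1 : ∀ k : ℕ, ∑ i, v i ^ k ∈ S)
    (h2 : ∀ k : ℕ, ∑ i, v i ^ k * w i ∈ S) :
    ∃ q ∈ S, q ≠ 0 ∧ ∃ c : ℕ → R, (∀ k, c k ∈ S) ∧
      ∀ i, q * w i = ∑ k ∈ Finset.range (Fintype.card ι), c k * v i ^ k := by
  classical
  obtain ⟨e⟩ : Nonempty (ι ≃ Fin (Fintype.card ι)) := ⟨Fintype.equivFin ι⟩
  obtain ⟨q, hqS, hq0, c, hcS, hc⟩ := exists_mul_eq_sum_fin S (v ∘ e.symm) (w ∘ e.symm)
    (hv.comp e.symm.injective)
    (fun k => by
      have := Equiv.sum_comp e.symm (fun i => v i ^ k)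
      simp only [Function.comp_apply]
      rw [this]; exact h1 k)
    (fun k => by
      have := Equiv.sum_comp e.symm (fun i => v i ^ k * w i)
      simp only [Function.comp_apply]
      rw [this]; exact h2 k)
  refine ⟨q, hqS, hq0, fun k => if h : k < Fintype.card ι then c ⟨k, h⟩ else 0, ?_, ?_⟩
  · intro k
    dsimp only
    split_ifs with h
    · exact hcS _
    · exact zero_mem _
  · intro i
    have := hc (e i)
    simp only [Function.comp_apply, Equiv.symm_apply_apply] at this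
    rw [this, Finset.sum_range]
    refine Finset.sum_congr rfl fun k _ => ?_
    dsimp only
    rw [dif_pos k.2]

end Fermat.Agent.S17.F
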