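import Fermat.Agent.S17.F.HolDomain
import Fermat.Agent.S17.F.Growth
import Fermat.Agent.S17.F.PolyJ
import Fermat.Agent.S17.F.Vandermonde

/-!
# S17 / F : descent: a holomorphic `Γ₀(N)`-invariant function `W` with `W^m ∈ Ran N` is a quotient of elements of `Ran N`
-/

set_option autoImplicit false
set_option linter.unusedSectionVars false

open UpperHalfPlane Filter Topology
open scoped MatrixGroups Manifold

namespace Fermat.Agent.S17.F

open Fermat.Agent.S24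

noncomputable section

variable (N : ℕ) [NeZero N]

instance instFintypeXN : Fintype (XN N) := Fintype.ofFinite _

/-- the translate of a `Γ₀(N)`-invariant function attached to a coset `g Γ₀(N)`: `τ ↦ W (g⁻¹ τ)` -/
def tr (W : ℍ → ℂ) (x : XN N) : ℍ → ℂ := compInv (Quotient.out x) W

variable {N}

theorem tr_mk {W : ℍ → ℂ} (hinv : ∀ γ ∈ G0 N, ∀ τ : ℍ, W (γ • τ) = W τ) (g : SL(2, ℤ)) :
    tr N W (g : XN N) = compInv g W := by
  obtain ⟨γ, hγ⟩ := QuotientGroup.mk_out_eq_mul (G0 N) g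
  funext τ
  unfold tr
  rw [hγ]
  simp only [compInv, mul_inv_rev, mul_smul]
  exact hinv _ (inv_mem γ.2) _

theorem compInv_tr {W : ℍ → ℂ} (hinv : ∀ γ ∈ G0 N, ∀ τ : ℍ, W (γ • τ) = W τ) (h : SL(2, ℤ))
    (x : XN N) : compInv h (tr N W x) = tr N W (h • x) := by
  induction x using QuotientGroup.induction_on with
  | H g =>
    have h1 : h • (g : XN N) = ((h * g : SL(2, ℤ)) : XN N) := rfl
    rw [h1, tr_mk hinv, tr_mk hinv]
    funext τ
    simp only [compInv, mul_inv_rev, mul_smul]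

theorem tr_one {W : ℍ → ℂ} (hinv : ∀ γ ∈ G0 N, ∀ τ : ℍ, W (γ • τ) = W τ) :
    tr N W ((1 : SL(2, ℤ)) : XN N) = W := by
  rw [tr_mk hinv]
  funext τ
  simp [compInv]

omit [NeZero N] in
theorem tr_mdiff {W : ℍ → ℂ} (hW : MDiff W) (x : XN N) : MDiff (tr N W x) :=
  compInv_mem_Hol _ ⟨W, hW⟩

theorem jd_invariant : ∀ γ ∈ G0 N, ∀ τ : ℍ, jd N (γ • τ) = jd N τ := fun γ hγ τ =>
  jd_smul_of_mem_Gamma0 N N dvd_rfl γ hγ τ

/-- from `mem_Gamma0_of_jd_smul` (see the end of the proof of `S24.exists_sigma`) -/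
theorem tr_jd_injective : Function.Injective (tr N (jd N)) := by
  intro x y hxy
  induction x using QuotientGroup.induction_on with
  | H g =>
  induction y using QuotientGroup.induction_on with
  | H h =>
  rw [tr_mk jd_invariant, tr_mk jd_invariant] at hxy
  rw [QuotientGroup.eq]
  have h3 : h⁻¹ * g ∈ CongruenceSubgroup.Gamma0 N := by
    apply mem_Gamma0_of_jd_smul N
    intro τ
    have := congrFun hxy (g • τ)
    simp only [compInv, inv_smul_smul] at this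
    rw [mul_smul, ← this]
  have := inv_mem h3
  simpa using this

/-- symmetric expressions are `SL₂(ℤ)`-invariant (reindex the sum by `x ↦ g⁻¹ • x`: `Equiv.sum_comp (MulAction.toPerm _)`) -/
theorem sum_tr_invariant {θ W : ℍ → ℂ} (hθ : ∀ γ ∈ G0 N, ∀ τ : ℍ, θ (γ • τ) = θ τ)
    (hW : ∀ γ ∈ G0 N, ∀ τ : ℍ, W (γ • τ) = W τ) (k : ℕ) (g : SL(2, ℤ)) (τ : ℍ) :
    (∑ x : XN N, tr N θ x ^ k * tr N W x) (g • τ) = (∑ x : XN N, tr N θ x ^ k * tr N W x) τ := by
  have h1 : ∀ (V : ℍ → ℂ), (∀ γ ∈ G0 N, ∀ τ : ℍ, V (γ • τ) = V τ) → ∀ x : XN N,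
      tr N V x (g • τ) = tr N V (g⁻¹ • x) τ := by
    intro V hV x
    rw [← compInv_tr hV]
    simp [compInv]
  simp only [Finset.sum_apply, Pi.mul_apply, Pi.pow_apply, h1 θ hθ, h1 W hW]
  exact Equiv.sum_comp (MulAction.toPerm g⁻¹) (fun x : XN N => tr N θ x τ ^ k * tr N W x τ)

/-- growth of the translates -/
theorem tr_mem_ModG {W : ℍ → ℂ} (hW : MDiff W) {m : ℕ} (hm : 0 < m) (hWm : W ^ m ∈ Ran N)
    (x : XN N) : tr N W x ∈ ModG N := by
  refine mem_ModG_of_pow (tr_mdiff hW x) hm ?_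
  exact HolCusp_le_ModG (compInv_mem_HolCusp hWm (Quotient.out x))

/-- the power sums are polynomials in `j` -/
theorem sum_tr_mem {θ W : ℍ → ℂ} (hθ : θ ∈ Ran N) (hW : MDiff W)
    (hWinv : ∀ γ ∈ G0 N, ∀ τ : ℍ, W (γ • τ) = W τ) {m : ℕ} (hm : 0 < m) (hWm : W ^ m ∈ Ran N)
    (k : ℕ) : (∑ x : XN N, tr N θ x ^ k * tr N W x) ∈ Algebra.adjoin ℂ {jfun} := by
  apply mem_adjoin_jfun
  · apply mem_HolCusp_one_of_invariant (h := N)
    · refine Subalgebra.sum_mem _ fun x _ => Subalgebra.mul_mem _ (Subalgebra.pow_mem _ ?_ k) ?_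
      · exact tr_mem_ModG (Ran_le_Hol N hθ) one_pos (by simpa using hθ) x
      · exact tr_mem_ModG hW hm hWm x
    · exact sum_tr_invariant (fun γ hγ τ => Ran_smul hθ hγ τ) hWinv k
  · exact sum_tr_invariant (fun γ hγ τ => Ran_smul hθ hγ τ) hWinv k

/-- **Descent.**  Apply `exists_mul_eq_sum` with `R = Hol`, `S = ℂ[j]`, `v x = tr (jd N) x`, `w x = tr W x`, and look at the coset of `1`. -/
theorem descent {W : ℍ → ℂ} (hW : MDiff W) (hWinv : ∀ γ ∈ G0 N, ∀ τ : ℍ, W (γ • τ) = W τ)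
    {m : ℕ} (hm : 0 < m) (hWm : W ^ m ∈ Ran N) :
    ∃ p q : Ran N, q ≠ 0 ∧ (q : ℍ → ℂ) * W = p := by
  have hθ : jd N ∈ Ran N := jd_mem_Ran N ⟨N, dvd_rfl⟩
  have hone : (1 : ℍ → ℂ) ^ 1 ∈ Ran N := by simp [(Ran N).one_mem]
  -- the subring `ℂ[j]` of `Hol`
  let S : Subring Hol := ((Algebra.adjoin ℂ {jfun}).comap Hol.val).toSubring
  have hS : ∀ x : Hol, x ∈ S ↔ (x : ℍ → ℂ) ∈ Algebra.adjoin ℂ {jfun} := fun x => Iff.rfl
  let v : XN N → Hol := fun x => ⟨tr N (jd N) x, tr_mdiff (jd_mdiff N) x⟩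
  let w : XN N → Hol := fun x => ⟨tr N W x, tr_mdiff hW x⟩
  have hv : Function.Injective v := fun x y hxy => tr_jd_injective (congrArg Subtype.val hxy)
  have h1 : ∀ k : ℕ, ∑ i, v i ^ k ∈ S := by
    intro k
    rw [hS]
    have := sum_tr_mem (N := N) hθ (W := 1) mdifferentiable_const (fun _ _ _ => rfl) one_pos hone k
    have h2 : ∀ x : XN N, tr N (1 : ℍ → ℂ) x = 1 := fun x => rfl
    simp only [h2, mul_one] at this
    convert this using 1
    simp [v]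
  have h2 : ∀ k : ℕ, ∑ i, v i ^ k * w i ∈ S := by
    intro k
    rw [hS]
    have := sum_tr_mem (N := N) hθ hW hWinv hm hWm k
    convert this using 1
    simp [v, w]
  obtain ⟨q, hqS, hq0, c, hc, hqc⟩ := exists_mul_eq_sum S v w hv h1 h2
  have hq := hqc ((1 : SL(2, ℤ)) : XN N)
  have hq' := congrArg (Subtype.val) hq
  have hv1 : ((v ((1 : SL(2, ℤ)) : XN N) : Hol) : ℍ → ℂ) = jd N := tr_one jd_invariant
  have hw1 : ((w ((1 : SL(2, ℤ)) : XN N) : Hol) : ℍ → ℂ) = W := tr_one hWinv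
  have hq'' : (q : ℍ → ℂ) * W
      = ∑ k ∈ Finset.range (Fintype.card (XN N)), (c k : ℍ → ℂ) * jd N ^ k := by
    rw [← hw1, ← hv1]
    simpa using hq'
  refine ⟨⟨∑ k ∈ Finset.range (Fintype.card (XN N)), (c k : ℍ → ℂ) * jd N ^ k, ?_⟩,
    ⟨q, adjoin_jfun_le_Ran N ((hS q).mp hqS)⟩, ?_, hq''⟩
  · exact Subalgebra.sum_mem _ fun k _ => Subalgebra.mul_mem _
      (adjoin_jfun_le_Ran N ((hS _).mp (hc k))) (Subalgebra.pow_mem _ hθ k)
  · intro h
    have h' : (q : ℍ → ℂ) = 0 := congrArg (Subtype.val) h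
    exact hq0 (Subtype.ext h')

end

end Fermat.Agent.S17.F
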