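import Fermat.Agent.S17.F.Defs

/-!
# S17 / F : `Hol` is a domain; `u^m = v^m ⇒ u = ζ v`; characters
-/

set_option autoImplicit false

open UpperHalfPlane Filter Topology
open scoped MatrixGroups Manifold

namespace Fermat.Agent.S17.F

open Fermat.Agent.S24

noncomputable section

/-- `taylorAt I` is an injective ring homomorphism to a field. -/
instance instIsDomainHol : IsDomain Hol :=
  Function.Injective.isDomain (taylorAt UpperHalfPlane.I).toRingHom (taylorAt_injective _)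

/-- HINT: in the domain `Hol`, `u^m - v^m = ∏_{ζ^m = 1} (u - ζ v)`
(`IsPrimitiveRoot.pow_sub_pow_eq_prod_sub_mul`, `Complex.isPrimitiveRoot_exp`), so a factor vanishes. -/
theorem eq_smul_of_pow_eq {u v : ℍ → ℂ} (hu : MDiff u) (hv : MDiff v) {m : ℕ} (hm : 0 < m)
    (h : u ^ m = v ^ m) : ∃ ζ : ℂ, ζ ^ m = 1 ∧ u = ζ • v := by
  have : NeZero m := ⟨hm.ne'⟩
  let x : Hol := ⟨u, hu⟩
  let y : Hol := ⟨v, hv⟩
  have hxy : x ^ m = y ^ m := Subtype.ext h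
  have hζ := Complex.isPrimitiveRoot_exp m hm.ne'
  have hζ' := hζ.map_of_injective (f := algebraMap ℂ Hol) (algebraMap ℂ Hol).injective
  have h1 := hζ'.pow_sub_pow_eq_prod_sub_mul x y hm
  rw [hxy, sub_self] at h1
  obtain ⟨ξ, hξ, h0⟩ := Finset.prod_eq_zero_iff.mp h1.symm
  have hξ1 : ξ ^ m = 1 := (Polynomial.mem_nthRootsFinset hm 1).mp hξ
  obtain ⟨i, -, hi⟩ := hζ'.eq_pow_of_pow_eq_one hξ1
  refine ⟨Complex.exp (2 * Real.pi * Complex.I / m) ^ i, ?_, ?_⟩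
  · rw [← pow_mul, mul_comm i m, pow_mul, hζ.pow_eq_one, one_pow]
  · have h2 : x = ξ * y := sub_eq_zero.mp h0
    rw [← hi, ← map_pow] at h2
    have h3 := congrArg Subtype.val h2
    funext τ
    exact congrFun h3 τ

/-- the character of an `m`-th root of a `Γ₀(N)`-invariant function.
HINT: `τ ↦ u (γ • τ)` is `compInv γ⁻¹ u`, holomorphic by `compInv_mem_Hol`; `eq_smul_of_pow_eq` gives `ζ_γ`, unique because
`u ≠ 0`; multiplicativity from uniqueness (`MonoidHom.mk'`; `rootsOfUnity.mkOfPowEq`). -/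
theorem exists_character (N : ℕ) {u : ℍ → ℂ} (hu : MDiff u) (hu0 : u ≠ 0) (m : ℕ) [NeZero m]
    (hinv : ∀ γ ∈ G0 N, ∀ τ : ℍ, u (γ • τ) ^ m = u τ ^ m) :
    ∃ χ : G0 N →* rootsOfUnity m ℂ, ∀ (γ : G0 N) (τ : ℍ),
      u ((γ : SL(2, ℤ)) • τ) = ((χ γ : ℂˣ) : ℂ) * u τ := by
  have hm : 0 < m := Nat.pos_of_ne_zero (NeZero.ne m)
  have key : ∀ γ : G0 N, ∃ ζ : ℂ, ζ ^ m = 1 ∧ ∀ τ : ℍ, u ((γ : SL(2, ℤ)) • τ) = ζ * u τ := by
    intro γ
    have h1 : MDiff (compInv (γ : SL(2, ℤ))⁻¹ u) := compInv_mem_Hol _ ⟨u, hu⟩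
    have h2 : compInv (γ : SL(2, ℤ))⁻¹ u ^ m = u ^ m := by
      funext τ
      simp only [Pi.pow_apply, compInv, inv_inv]
      exact hinv γ γ.2 τ
    obtain ⟨ζ, hζ, h3⟩ := eq_smul_of_pow_eq h1 hu hm h2
    refine ⟨ζ, hζ, fun τ => ?_⟩
    have := congrFun h3 τ
    simpa [compInv] using this
  choose ζ hζ hu' using key
  obtain ⟨τ₀, hτ₀⟩ : ∃ τ₀, u τ₀ ≠ 0 := by
    by_contra hcon
    push Not at hcon
    exact hu0 (funext hcon)
  have hmul : ∀ γ γ' : G0 N, ζ (γ * γ') = ζ γ * ζ γ' := by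
    intro γ γ'
    have h1 := hu' (γ * γ') τ₀
    rw [Subgroup.coe_mul, mul_smul, hu' γ, hu' γ', ← mul_assoc] at h1
    exact (mul_right_cancel₀ hτ₀ h1).symm
  refine ⟨MonoidHom.mk' (fun γ => rootsOfUnity.mkOfPowEq (ζ γ) (hζ γ)) ?_, fun γ τ => ?_⟩
  · intro γ γ'
    apply Subtype.ext
    apply Units.ext
    simp [hmul]
  · simpa using hu' γ τ

end

end Fermat.Agent.S17.F
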