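import Fermat.Agent.S17.F.Defs

/-!
# S17 / F : an `SL₂(ℤ)`-invariant holomorphic function on `ℍ`, meromorphic at `i∞`, is a polynomial in `j`
-/

set_option autoImplicit false

open UpperHalfPlane Filter Topology
open scoped MatrixGroups Manifold

namespace Fermat.Agent.S17.F

open Fermat.Agent.S24

namespace PolyJStep

open Laurent

theorem NB_tendsto {h : ℝ} (hh : 0 < h) {F : ℍ → ℂ} (hF : NB h F) :
    Tendsto F atImInfty (𝓝 (cuspFunction h F 0)) := by
  have h1 : (cuspFunction h F ∘ fun τ : ℍ => Function.Periodic.qParam h (τ : ℂ)) = F := by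
    funext τ
    simpa using eq_cuspFunction τ hh.ne' hF.per
  have h2 := (hF.analytic hh).continuousAt.tendsto.comp (qParam_tendsto_atImInfty hh)
  rwa [h1] at h2

theorem NB_isBigO {h : ℝ} (hh : 0 < h) {F : ℍ → ℂ} (hF : NB h F)
    (h0 : Tendsto F atImInfty (𝓝 0)) : F =O[atImInfty] (qq h) := by
  have h1 : cuspFunction h F 0 = 0 := tendsto_nhds_unique (NB_tendsto hh hF) h0
  have h2 := ((hF.analytic hh).differentiableAt.isBigO_sub).comp_tendsto
    (qParam_tendsto_atImInfty hh)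
  refine h2.congr (fun τ => ?_) (fun τ => ?_)
  · simp only [Function.comp_apply, h1, sub_zero]
    exact eq_cuspFunction τ hh.ne' hF.per
  · simp only [Function.comp_apply, sub_zero]
    rfl

end PolyJStep

open PolyJStep Laurent in
/-- the induction step: if `c q^(k+1)` is bounded then there is `a` with `(c - a j^(k+1)) q^k` bounded.
PROOF. `F = c q^(k+1)` is `Laurent.NB 1`; it has a limit `a` at `i∞` (`cuspFunction` is analytic at `0`);
`G = (c - a j^(k+1)) q^(k+1) = F - a (j q)^(k+1)` is holomorphic, periodic and tends to `a - a = 0` (`jfun_mul_qh_tendsto`), so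
`G = O(|q|)` (`Function.Periodic.exp_decay_of_zero_at_inf` or `HasDerivAt.isBigO_sub` for the cusp function), i.e. `G / q` is bounded. -/
theorem exists_sub_bounded {c : ℍ → ℂ} (hc : c ∈ HolCusp 1) (k : ℕ)
    (hb : IsBoundedAtImInfty (fun τ => c τ * qh 1 τ ^ (k + 1))) :
    ∃ a : ℂ, IsBoundedAtImInfty (fun τ => (c τ - a * jfun τ ^ (k + 1)) * qh 1 τ ^ k) := by
  have h1 : (0 : ℝ) < ((1 : ℕ) : ℝ) := hpos 1
  have hF : NB ((1 : ℕ) : ℝ) (c * qq ((1 : ℕ) : ℝ) ^ (k + 1)) := NB_of_bdd hc hb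
  have hJ : NB ((1 : ℕ) : ℝ) (jfun * qq ((1 : ℕ) : ℝ) ^ 1) :=
    NB_of_bdd (jfun_mem_HolCusp 1) (by
      have h2 : IsBoundedAtImInfty (fun τ => jfun τ * qh 1 τ) := jfun_mul_qh_tendsto.isBigO_one ℝ
      simpa only [pow_one] using h2)
  set a := cuspFunction ((1 : ℕ) : ℝ) (c * qq ((1 : ℕ) : ℝ) ^ (k + 1)) 0 with ha
  have hFt := NB_tendsto h1 hF
  rw [← ha] at hFt
  refine ⟨a, ?_⟩
  have hG : NB ((1 : ℕ) : ℝ) (c * qq ((1 : ℕ) : ℝ) ^ (k + 1)
      + (fun _ => -a) * (jfun * qq ((1 : ℕ) : ℝ) ^ 1) ^ (k + 1)) :=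
    hF.add ((NB.const (-a)).mul (hJ.pow (k + 1)))
  have hJt : Tendsto (jfun * qq ((1 : ℕ) : ℝ) ^ 1) atImInfty (𝓝 1) := by
    refine jfun_mul_qh_tendsto.congr fun τ => ?_
    simp only [Pi.mul_apply, pow_one]
    rfl
  have hGt : Tendsto (c * qq ((1 : ℕ) : ℝ) ^ (k + 1)
      + (fun _ => -a) * (jfun * qq ((1 : ℕ) : ℝ) ^ 1) ^ (k + 1)) atImInfty (𝓝 0) := by
    have := hFt.add ((tendsto_const_nhds (x := -a)).mul (hJt.pow (k + 1)))
    rw [one_pow, mul_one, add_neg_cancel] at this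
    exact this
  have hO := NB_isBigO h1 hG hGt
  have hO2 := hO.mul (Asymptotics.isBigO_refl (fun τ : ℍ => (qq ((1 : ℕ) : ℝ) τ)⁻¹) atImInfty)
  refine hO2.congr (fun τ => ?_) (fun τ => ?_) |>.trans ?_ (g := fun _ => (1 : ℂ))
  · have hq : qq ((1 : ℕ) : ℝ) τ ≠ 0 := qq_ne_zero τ
    have hqq : qh 1 τ = qq ((1 : ℕ) : ℝ) τ := rfl
    simp only [Pi.mul_apply, Pi.add_apply, Pi.pow_apply, pow_one, hqq]
    field_simp
    ring
  · exact mul_inv_cancel₀ (qq_ne_zero τ)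
  · exact (Asymptotics.isBigO_const_const _ one_ne_zero _)

end Fermat.Agent.S17.F
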