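import Fermat.Agent.S17.F.RootNZ

/-!
# S17 / F : `m`-th roots of holomorphic functions on discs (Mathlib only) -- RB2
-/

set_option autoImplicit false

open Metric Set Filter Topology

namespace Fermat.Agent.S17.F

/-- RB2. A holomorphic function on a neighbourhood of a closed disc all of whose orders of vanishing are (finite and) divisible by `m`
has a holomorphic `m`-th root on the open disc.
PROOF. `MeromorphicOn.extract_zeros_poles` on the compact set `U = closedBall c r` (the divisor has finite support because `U` is compact):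
`A = (∏ᶠ u, (· - u) ^ divisor A U u) • g` on a codiscrete subset of `U`, `g` analytic without zeros on `U`;
`divisor A U u = m * k u` with `k u ≥ 0`; both sides are continuous on the open ball, so they agree there
(a codiscrete subset is dense);  root `= (∏ (· - u) ^ k u) * (root of g from RB1)`.
ALTERNATIVE: induction on the (finite) number of zeros in the closed ball, dividing by `(z - z₀)^(m k)`
(`AnalyticAt.analyticOrderAt_eq_natCast`, `dslope`). -/
theorem exists_root_closedBall {A : ℂ → ℂ} {c : ℂ} {r : ℝ} {m : ℕ} (hm : 0 < m)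
    (hA : AnalyticOnNhd ℂ A (closedBall c r))
    (hord : ∀ z ∈ closedBall c r, ∃ k : ℕ, analyticOrderAt A z = ((m * k : ℕ) : ℕ∞)) :
    ∃ u : ℂ → ℂ, DifferentiableOn ℂ u (ball c r) ∧ ∀ z ∈ ball c r, u z ^ m = A z := by
  set U := closedBall c r with hU
  have hmer : MeromorphicOn A U := hA.meromorphicOn
  choose! k hk using hord
  have hmo : ∀ u ∈ U, meromorphicOrderAt A u = ((m * k u : ℕ) : ℤ) := by
    intro u hu
    rw [(hA u hu).meromorphicOrderAt_eq, hk u hu]
    rfl
  have h2 : ∀ u : U, meromorphicOrderAt A u ≠ ⊤ := by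
    rintro ⟨u, hu⟩
    rw [hmo u hu]
    exact WithTop.coe_ne_top
  have h3 : (MeromorphicOn.divisor A U).support.Finite :=
    (MeromorphicOn.divisor A U).finiteSupport (isCompact_closedBall c r)
  obtain ⟨g, hg1, hg2, hg3⟩ := hmer.extract_zeros_poles h2 h3
  have hdiv : ∀ u ∈ U, MeromorphicOn.divisor A U u = ((m * k u : ℕ) : ℤ) := by
    intro u hu
    rw [MeromorphicOn.divisor_apply hmer hu, hmo u hu]
    rfl
  have hsub : ∀ u ∈ h3.toFinset, u ∈ U := by
    intro u hu
    have h1 : u ∈ (MeromorphicOn.divisor A U).support := h3.mem_toFinset.1 hu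
    exact (MeromorphicOn.divisor A U).supportWithinDomain h1
  obtain ⟨v, hv1, hv2⟩ := exists_root_of_ne_zero (g := g) (c := c) (r := r)
    (hg1.differentiableOn.mono ball_subset_closedBall)
    (fun z hz => hg2 ⟨z, ball_subset_closedBall hz⟩) hm
  -- the right hand side as an honest function
  have hR : ((∏ᶠ u, (· - u) ^ MeromorphicOn.divisor A U u) • g)
      = fun z => (∏ u ∈ h3.toFinset, (z - u) ^ (m * k u)) * g z := by
    rw [Function.FactorizedRational.finprod_eq_fun h3]
    funext z
    simp only [Pi.smul_apply', smul_eq_mul]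
    congr 1
    rw [finprod_eq_prod_of_mulSupport_subset (s := h3.toFinset)]
    · refine Finset.prod_congr rfl fun u hu => ?_
      rw [hdiv u (hsub u hu), zpow_natCast]
    · intro u hu
      simp only [Function.mem_mulSupport] at hu
      simp only [Finite.coe_toFinset, Function.mem_support]
      intro h0
      apply hu
      rw [h0, zpow_zero]
  rw [hR] at hg3
  refine ⟨fun z => (∏ u ∈ h3.toFinset, (z - u) ^ k u) * v z, ?_, ?_⟩
  · refine DifferentiableOn.mul ?_ hv1
    apply Differentiable.differentiableOn
    fun_prop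
  · intro z hz
    have hzU : z ∈ U := ball_subset_closedBall hz
    simp only [mul_pow, hv2 z hz, ← Finset.prod_pow, ← pow_mul]
    have hcomm : ∀ u, k u * m = m * k u := fun u => mul_comm _ _
    simp only [hcomm]
    -- continuity argument
    have h5 := (mem_codiscreteWithin_iff_forall_mem_nhdsNE.1 hg3) z hzU
    have h6 : ∀ᶠ w in 𝓝[≠] z, A w = (∏ u ∈ h3.toFinset, (w - u) ^ (m * k u)) * g w := by
      have h7 : ∀ᶠ w in 𝓝[≠] z, w ∈ U :=
        mem_nhdsWithin_of_mem_nhds (mem_of_superset (isOpen_ball.mem_nhds hz) ball_subset_closedBall)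
      filter_upwards [h5, h7] with w hw hwU
      rcases hw with hw | hw
      · exact hw
      · exact absurd hwU hw
    have hc1 : Tendsto A (𝓝[≠] z) (𝓝 (A z)) :=
      ((hA z hzU).continuousAt.tendsto).mono_left nhdsWithin_le_nhds
    have hc2 : Tendsto (fun w => (∏ u ∈ h3.toFinset, (w - u) ^ (m * k u)) * g w) (𝓝[≠] z)
        (𝓝 ((∏ u ∈ h3.toFinset, (z - u) ^ (m * k u)) * g z)) := by
      have : ContinuousAt (fun w => (∏ u ∈ h3.toFinset, (w - u) ^ (m * k u)) * g w) z := by
        refine ContinuousAt.mul ?_ (hg1 z hzU).continuousAt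
        apply Continuous.continuousAt
        fun_prop
      exact this.tendsto.mono_left nhdsWithin_le_nhds
    exact (tendsto_nhds_unique_of_eventuallyEq hc1 hc2 h6).symm

end Fermat.Agent.S17.F
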