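import Mathlib

/-!
# S17 / F : `m`-th roots of holomorphic functions on discs (Mathlib only) -- RB1
-/

set_option autoImplicit false

open Metric Set Filter Topology

namespace Fermat.Agent.S17.F

/-- RB1. A nowhere vanishing holomorphic function on a disc has a holomorphic `m`-th root.
PROOF. `g'/g` is holomorphic on the ball, so it has a primitive `L` (`DifferentiableOn.isExactOn_ball`);
`(g * exp (-L))' = 0` so `g = C * exp L` on the (convex / preconnected open) ball, `C ≠ 0`, `C = exp c₀`; `u = exp ((L + c₀)/m)`.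
(The case `r ≤ 0` is trivial: the ball is empty.) -/
theorem exists_root_of_ne_zero {g : ℂ → ℂ} {c : ℂ} {r : ℝ} (hg : DifferentiableOn ℂ g (ball c r))
    (h0 : ∀ z ∈ ball c r, g z ≠ 0) {m : ℕ} (hm : 0 < m) :
    ∃ u : ℂ → ℂ, DifferentiableOn ℂ u (ball c r) ∧ ∀ z ∈ ball c r, u z ^ m = g z := by
  have hm' : (m : ℂ) ≠ 0 := by exact_mod_cast hm.ne'
  have hdg : DifferentiableOn ℂ (deriv g) (ball c r) := hg.deriv isOpen_ball
  have hq : DifferentiableOn ℂ (fun z => deriv g z / g z) (ball c r) := hdg.div hg h0
  obtain ⟨L, hL⟩ := hq.isExactOn_ball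
  have hgd : ∀ z ∈ ball c r, HasDerivAt g (deriv g z) z := fun z hz =>
    (hg.differentiableAt (isOpen_ball.mem_nhds hz)).hasDerivAt
  -- `φ = g * exp (-L)` has zero derivative
  have hφ : ∀ z ∈ ball c r, HasDerivAt (fun w => g w * Complex.exp (-L w)) 0 z := by
    intro z hz
    have h1 : HasDerivAt (fun w => g w * Complex.exp (-L w))
        (deriv g z * Complex.exp (-L z) + g z * (Complex.exp (-L z) * -(deriv g z / g z))) z :=
      (hgd z hz).mul ((hL z hz).neg.cexp)
    have h2 : deriv g z * Complex.exp (-L z) + g z * (Complex.exp (-L z) * -(deriv g z / g z))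
        = 0 := by
      have := h0 z hz
      field_simp
      ring
    rwa [h2] at h1
  obtain ⟨C, hC⟩ := isOpen_ball.exists_is_const_of_deriv_eq_zero (convex_ball c r).isPreconnected
    (fun z hz => (hφ z hz).differentiableAt.differentiableWithinAt)
    (fun z hz => (hφ z hz).deriv)
  refine ⟨fun z => Complex.exp ((L z + Complex.log C) / m), ?_, ?_⟩
  · intro z hz
    have h1 : HasDerivAt (fun z => (L z + Complex.log C) / m) _ z :=
      ((hL z hz).add_const (Complex.log C)).div_const (m : ℂ)
    exact h1.cexp.differentiableAt.differentiableWithinAt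
  · intro z hz
    have hCz := hC z hz
    have hC0 : C ≠ 0 := by
      rw [← hCz]
      exact mul_ne_zero (h0 z hz) (Complex.exp_ne_zero _)
    rw [← Complex.exp_nat_mul, mul_div_cancel₀ _ hm', Complex.exp_add, Complex.exp_log hC0, ← hCz,
      mul_comm, mul_assoc, ← Complex.exp_add]
    simp

end Fermat.Agent.S17.F
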